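import Fermat.Agent.CubicFields.Uniform
import Mathlib.Analysis.PSeries
import Mathlib.Data.Set.Card.Arithmetic
import Mathlib.NumberTheory.EulerProduct.DirichletLSeries
import Mathlib.NumberTheory.LSeries.HurwitzZetaValues
import Mathlib.NumberTheory.LSeries.Nonvanishing

/-!
# The count of maximal classes

Sieving with the congruence count at the small primes and the uniformity estimate at the large
ones, the classes maximal at every prime have density `1 / (ζ (2) ζ (3))` among all classes.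
-/

set_option autoImplicit false

noncomputable section

open FA.Thue FA.DeloneFaddeev FA.CubicFormCount Filter
open scoped Classical Topology Real

namespace FA.CubicFields

/-- The forms maximal at the primes of `S`. -/
def maxAtSet (S : Finset ℕ) : Set CubicForm := {f | ∀ p ∈ S, f ∉ badAt p}

/-- The forms maximal at every prime. -/
def maxForms : Set CubicForm := {f | ∀ p : ℕ, p.Prime → f ∉ badAt p}

theorem residues_compl_add (m : ℕ) (Q : Set CubicForm) :
    (residues m Qᶜ).card + (residues m Q).card = m ^ 4 := by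
  have h := Finset.card_filter_add_card_filter_not (s := Fintype.piFinset fun _ : Fin 4 =>
    Finset.Ico (0 : ℤ) m) (fun r => mkForm r ∈ Q)
  rw [Fintype.card_piFinset_const, Int.card_Ico, sub_zero, Int.toNat_natCast] at h
  have e : ∀ (R : Set CubicForm), residues m R = (Fintype.piFinset fun _ : Fin 4 =>
      Finset.Ico (0 : ℤ) m).filter fun r => mkForm r ∈ R := fun R => rfl
  have e1 : residues m Qᶜ = (Fintype.piFinset fun _ : Fin 4 =>
      Finset.Ico (0 : ℤ) m).filter fun r => mkForm r ∉ Q := by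
    rw [e]; ext r; simp
  rw [add_comm, e1, e]
  exact h

/-- The local factor. -/
def localFactor (p : ℕ) : ℝ := (1 - ((p : ℝ) ^ 2)⁻¹) * (1 - ((p : ℝ) ^ 3)⁻¹)

theorem periodic_compl {m : ℕ} {Q : Set CubicForm} (h : PeriodicSet m Q) : PeriodicSet m Qᶜ :=
  fun v w hvw hv hw => hv (h w v (fun i => dvd_sub_comm.mp (hvw i)) hw)

theorem density_compl_badAt {p : ℕ} (hp : p.Prime) :
    density (p ^ 2) (badAt p)ᶜ = localFactor p := by
  have h1 := residues_compl_add (p ^ 2) (badAt p)
  have h2 := card_residues_badAt hp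
  have hp0 : (p : ℝ) ≠ 0 := by exact_mod_cast hp.ne_zero
  have e1 : (((residues (p ^ 2) (badAt p)ᶜ).card : ℝ)) + (residues (p ^ 2) (badAt p)).card =
      (((p : ℝ)) ^ 2) ^ 4 := by exact_mod_cast h1
  have e2 : ((residues (p ^ 2) (badAt p)).card : ℝ) + (p : ℝ) ^ 3 = (p : ℝ) ^ 6 + (p : ℝ) ^ 5 := by
    exact_mod_cast h2
  rw [density, localFactor, eq_sub_of_add_eq e1, eq_sub_of_add_eq e2]
  push_cast
  field_simp
  ring

theorem periodic_inter {m n : ℕ} {A B : Set CubicForm} (hA : PeriodicSet m A)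
    (hB : PeriodicSet n B) : PeriodicSet (m * n) (A ∩ B) := fun v w h ⟨h1, h2⟩ =>
  ⟨hA v w (fun i => (Int.natCast_dvd_natCast.mpr (dvd_mul_right m n)).trans (h i)) h1,
    hB v w (fun i => (Int.natCast_dvd_natCast.mpr (dvd_mul_left n m)).trans (h i)) h2⟩

theorem card_residues_inter {m n : ℕ} (hm : 0 < m) (hn : 0 < n) (hmn : m.Coprime n)
    {A B : Set CubicForm} (hA : PeriodicSet m A) (hB : PeriodicSet n B) :
    (residues (m * n) (A ∩ B)).card = (residues m A).card * (residues n B).card := by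
  have hm' : (0 : ℤ) < m := by exact_mod_cast hm
  have hn' : (0 : ℤ) < n := by exact_mod_cast hn
  have hcop : IsCoprime (m : ℤ) n := Nat.isCoprime_iff_coprime.mpr hmn
  have hmod : ∀ {k : ℕ}, 0 < (k : ℤ) → ∀ v : Fin 4 → ℤ,
      ∀ i, (fun j => v j % (k : ℤ)) i ∈ Finset.Ico (0 : ℤ) k := fun hk v i =>
    Finset.mem_Ico.mpr ⟨Int.emod_nonneg _ hk.ne', Int.emod_lt_of_pos _ hk⟩
  rw [← Finset.card_product]
  refine Finset.card_bij (fun v _ => (fun i => v i % (m : ℤ), fun i => v i % (n : ℤ))) ?_ ?_ ?_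
  · intro v hv
    obtain ⟨-, h1, h2⟩ := mem_residues.mp hv
    exact Finset.mem_product.mpr ⟨mem_residues.mpr ⟨hmod hm' v,
      hA v _ (fun i => Int.dvd_self_sub_emod) h1⟩,
      mem_residues.mpr ⟨hmod hn' v, hB v _ (fun i => Int.dvd_self_sub_emod) h2⟩⟩
  · intro v hv w hw he
    funext i
    have e1 : v i % (m : ℤ) = w i % (m : ℤ) := congrFun (congrArg Prod.fst he) i
    have e2 : v i % (n : ℤ) = w i % (n : ℤ) := congrFun (congrArg Prod.snd he) i
    have hd : ((m * n : ℕ) : ℤ) ∣ w i - v i := by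
      push_cast
      exact hcop.mul_dvd (Int.ModEq.dvd e1) (Int.ModEq.dvd e2)
    have b1 := Finset.mem_Ico.mp ((mem_residues.mp hv).1 i)
    have b2 := Finset.mem_Ico.mp ((mem_residues.mp hw).1 i)
    have := Int.eq_zero_of_abs_lt_dvd hd (by rw [abs_lt]; omega)
    omega
  · rintro ⟨r, s⟩ hrs
    obtain ⟨hr, hs⟩ := Finset.mem_product.mp hrs
    obtain ⟨r1, r2⟩ := mem_residues.mp hr
    obtain ⟨s1, s2⟩ := mem_residues.mp hs
    obtain ⟨u, v, huv⟩ := hcop
    set x : Fin 4 → ℤ := fun i => (r i * v * n + s i * u * m) % ((m * n : ℕ) : ℤ)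
    have hx1 : ∀ i, (m : ℤ) ∣ r i - x i := fun i => by
      refine ⟨(r i - s i) * u + (n : ℤ) * ((r i * v * n + s i * u * m) / ((m * n : ℕ) : ℤ)), ?_⟩
      simp only [x, Int.emod_def]
      push_cast
      linear_combination -(r i) * huv
    have hx2 : ∀ i, (n : ℤ) ∣ s i - x i := fun i => by
      refine ⟨(s i - r i) * v + (m : ℤ) * ((r i * v * n + s i * u * m) / ((m * n : ℕ) : ℤ)), ?_⟩
      simp only [x, Int.emod_def]
      push_cast
      linear_combination -(s i) * huv
    have hmn0 : (0 : ℤ) < ((m * n : ℕ) : ℤ) := by exact_mod_cast Nat.mul_pos hm hn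
    refine ⟨x, mem_residues.mpr ⟨fun i => Finset.mem_Ico.mpr
      ⟨Int.emod_nonneg _ hmn0.ne', Int.emod_lt_of_pos _ hmn0⟩, hA r x hx1 r2, hB s x hx2 s2⟩, ?_⟩
    simp only [Prod.mk.injEq]
    constructor <;> funext i
    · have b : 0 ≤ r i ∧ r i < m := Finset.mem_Ico.mp (r1 i)
      rw [← Int.emod_eq_of_lt b.1 b.2]
      exact Int.modEq_of_dvd (hx1 i)
    · have b : 0 ≤ s i ∧ s i < n := Finset.mem_Ico.mp (s1 i)
      rw [← Int.emod_eq_of_lt b.1 b.2]
      exact Int.modEq_of_dvd (hx2 i)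

/-- The modulus of `S`. -/
def modulus (S : Finset ℕ) : ℕ := ∏ p ∈ S, p ^ 2

theorem maxAtSet_facts (S : Finset ℕ) (hS : ∀ p ∈ S, p.Prime) :
    0 < modulus S ∧ PeriodicSet (modulus S) (maxAtSet S) ∧
      density (modulus S) (maxAtSet S) = ∏ p ∈ S, localFactor p := by
  induction S using Finset.induction_on with
  | empty =>
    have h : maxAtSet ∅ = Set.univ := by simp [maxAtSet]
    rw [h]
    simp [modulus, density_univ, periodic_ones]
  | insert p S hpS ih =>
    obtain ⟨h0, hper, hd⟩ := ih fun q hq => hS q (Finset.mem_insert_of_mem hq)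
    have hp := hS p (Finset.mem_insert_self p S)
    have hset : maxAtSet (insert p S) = (badAt p)ᶜ ∩ maxAtSet S := by
      ext f; simp [maxAtSet]
    have hmod : modulus (insert p S) = p ^ 2 * modulus S := Finset.prod_insert hpS
    have hpp : 0 < p ^ 2 := pow_pos hp.pos 2
    have hcop : (p ^ 2).Coprime (modulus S) := by
      refine Nat.Coprime.prod_right fun q hq => Nat.Coprime.pow 2 2 ?_
      exact (Nat.coprime_primes hp (hS q (Finset.mem_insert_of_mem hq))).mpr
        fun h => hpS (h ▸ hq)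
    have hb := periodic_compl (periodic_badAt p)
    refine ⟨by rw [hmod]; positivity, by rw [hmod, hset]; exact periodic_inter hb hper, ?_⟩
    rw [Finset.prod_insert hpS, ← hd, ← density_compl_badAt hp, hmod, hset, density, density,
      density, card_residues_inter hpp h0 hcop hb hper]
    push_cast
    ring

theorem invariant_maxAtSet (S : Finset ℕ) :
    ∀ f g, Twisted f g → f ∈ maxAtSet S → g ∈ maxAtSet S := fun f g h hf p hp hg =>
  hf p hp (invariant_badAt p g f (twisted_symm h) hg)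

theorem sum_inv_sq_le {Y : ℕ} (hY : 2 ≤ Y) (N : ℕ) :
    ∑ p ∈ Finset.Ico Y (N + 1), ((p : ℝ) ^ 2)⁻¹ ≤ ((Y : ℝ) - 1)⁻¹ := by
  have e : Finset.Ico Y (N + 1) ⊆ Finset.Ioc (Y - 1) (max N (Y - 1)) := fun x hx => by
    simp only [Finset.mem_Ico, Finset.mem_Ioc] at hx ⊢
    omega
  refine (Finset.sum_le_sum_of_subset_of_nonneg e fun _ _ _ => by positivity).trans
    ((sum_Ioc_inv_sq_le_sub (by omega) (le_max_right _ _)).trans ?_)
  rw [Nat.cast_sub (by omega), Nat.cast_one]
  linarith [inv_nonneg.mpr (Nat.cast_nonneg (α := ℝ) (max N (Y - 1)))]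

/-- The sieve. -/
theorem sieve_step (ε : Bool) {C : ℝ} (hC : 0 ≤ C)
    (hb : ∀ p : ℕ, p.Prime → ∀ X : ℝ, 0 ≤ X →
      ((classes ε (badAt p) X).ncard : ℝ) ≤ C * (X / (p : ℝ) ^ 2))
    {Y : ℕ} (hY : 2 ≤ Y) {X : ℝ} (hX : 0 ≤ X) :
    (classes ε maxForms X).ncard ≤ (classes ε (maxAtSet (Nat.primesBelow Y)) X).ncard ∧
      ((classes ε (maxAtSet (Nat.primesBelow Y)) X).ncard : ℝ) ≤
        (classes ε maxForms X).ncard + C * X * ((Y : ℝ) - 1)⁻¹ := by
  constructor
  · refine Set.ncard_le_ncard ?_ (classes_finite _ _ _)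
    rintro c ⟨f, hf, h⟩
    exact ⟨f, fun p hp => hf p (Nat.prime_of_mem_primesBelow hp), h⟩
  set N := ⌈C * X⌉₊
  set P := (Finset.Ico Y (N + 1)).filter Nat.Prime
  have hsub : classes ε (maxAtSet (Nat.primesBelow Y)) X ⊆ classes ε maxForms X ∪
      ⋃ p ∈ P, classes ε (badAt p) X := by
    rintro c ⟨f, hf, h⟩
    by_cases hm : f ∈ maxForms
    · exact Or.inl ⟨f, hm, h⟩
    · simp only [maxForms, Set.mem_ofPred_eq, not_forall, not_not] at hm
      obtain ⟨p, hp, hbad⟩ := hm
      have hpY : Y ≤ p := by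
        by_contra hlt
        exact hf p (Nat.mem_primesBelow.mpr ⟨by omega, hp⟩) hbad
      have hne : classSet f ∈ classes ε (badAt p) X :=
        ⟨f, hbad, h.1, h.2.1, h.2.2.1, rfl⟩
      have h1 : (1 : ℝ) ≤ (classes ε (badAt p) X).ncard := by
        exact_mod_cast (Set.ncard_pos (classes_finite _ _ _)).mpr ⟨_, hne⟩
      have h2 := h1.trans (hb p hp X hX)
      rw [mul_div_assoc', le_div_iff₀ (by have := hp.pos; positivity), one_mul] at h2
      have hpN : p ≤ N := by
        have : (p : ℝ) ≤ (N : ℝ) := le_trans (le_trans (le_self_pow₀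
          (by exact_mod_cast hp.one_lt.le) two_ne_zero) h2) (Nat.le_ceil _)
        exact_mod_cast this
      refine Or.inr (Set.mem_iUnion₂.mpr ⟨p, Finset.mem_filter.mpr
        ⟨Finset.mem_Ico.mpr ⟨hpY, by omega⟩, hp⟩, ?_⟩)
      rw [h.2.2.2]
      exact hne
  have hcalc : ((classes ε (maxAtSet (Nat.primesBelow Y)) X).ncard : ℝ) ≤
      (classes ε maxForms X).ncard + ∑ p ∈ P, ((classes ε (badAt p) X).ncard : ℝ) := by
    have hfin : ∀ p ∈ P, (classes ε (badAt p) X).Finite := fun p _ => classes_finite _ _ _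
    refine (Nat.cast_le.mpr ((Set.ncard_le_ncard hsub ((classes_finite _ _ _).union
      (P.finite_toSet.biUnion hfin))).trans ((Set.ncard_union_le _ _).trans
      (Nat.add_le_add_left (Finset.set_ncard_biUnion_le P _) _)))).trans (le_of_eq ?_)
    push_cast
    rfl
  refine hcalc.trans (add_le_add le_rfl ?_)
  calc ∑ p ∈ P, ((classes ε (badAt p) X).ncard : ℝ) ≤ ∑ p ∈ P, C * X * ((p : ℝ) ^ 2)⁻¹ :=
        Finset.sum_le_sum fun p hp => (hb p (Finset.mem_filter.mp hp).2 X hX).trans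
          (le_of_eq (by rw [div_eq_mul_inv, mul_assoc]))
    _ ≤ C * X * ∑ p ∈ Finset.Ico Y (N + 1), ((p : ℝ) ^ 2)⁻¹ := by
        rw [← Finset.mul_sum]
        exact mul_le_mul_of_nonneg_left (Finset.sum_le_sum_of_subset_of_nonneg
          (Finset.filter_subset _ _) fun _ _ _ => by positivity) (by positivity)
    _ ≤ _ := mul_le_mul_of_nonneg_left (sum_inv_sq_le hY N) (by positivity)

/-- `1 / (ζ (2) ζ (3))`. -/
def maxDensity : ℝ := (π ^ 2 / 6)⁻¹ * ((riemannZeta 3).re)⁻¹

theorem tendsto_eulerFactor {k : ℕ} (hk : 2 ≤ k) :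
    Tendsto (fun n : ℕ => ∏ p ∈ n.primesBelow, (1 - ((p : ℝ) ^ k)⁻¹)) atTop
      (𝓝 ((riemannZeta k).re)⁻¹) := by
  have hs : 1 < ((k : ℂ)).re := by
    rw [Complex.natCast_re]; exact_mod_cast hk
  have h := riemannZeta_eulerProduct hs
  set F : ℕ → ℝ := fun n => ∏ p ∈ n.primesBelow, (1 - ((p : ℝ) ^ k)⁻¹)
  have e : ∀ n : ℕ, ∏ p ∈ n.primesBelow, (1 - (p : ℂ) ^ (-(k : ℂ)))⁻¹ = (((F n)⁻¹ : ℝ) : ℂ) := by
    intro n
    simp only [F, ← Finset.prod_inv_distrib, Complex.ofReal_prod]
    refine Finset.prod_congr rfl fun p _ => ?_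
    rw [Complex.cpow_neg, Complex.cpow_natCast]
    push_cast
    rfl
  simp only [e] at h
  have hre : Tendsto (fun n => (F n)⁻¹) atTop (𝓝 (riemannZeta k).re) := by
    simpa [Function.comp_def] using (Complex.continuous_re.tendsto _).comp h
  have him : Tendsto (fun _ : ℕ => (0 : ℝ)) atTop (𝓝 (riemannZeta k).im) := by
    simpa [Function.comp_def] using (Complex.continuous_im.tendsto _).comp h
  have hne : (riemannZeta k).re ≠ 0 := fun h0 => riemannZeta_ne_zero_of_one_lt_re hs
    (Complex.ext h0 (tendsto_nhds_unique him tendsto_const_nhds))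
  simpa using hre.inv₀ hne

theorem tendsto_localFactor :
    Tendsto (fun n : ℕ => ∏ p ∈ n.primesBelow, localFactor p) atTop (𝓝 maxDensity) := by
  have h2 : (riemannZeta ((2 : ℕ) : ℂ)).re = π ^ 2 / 6 := by
    rw [Nat.cast_ofNat, riemannZeta_two]; norm_cast
  have h := (tendsto_eulerFactor (le_refl 2)).mul (tendsto_eulerFactor (k := 3) (by norm_num))
  rw [h2, Nat.cast_ofNat] at h
  simpa [localFactor, maxDensity, Finset.prod_mul_distrib] using h

/-- **The count of maximal classes.** -/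
theorem tendsto_maxForms (ε : Bool) :
    Tendsto (fun X : ℝ => ((classes ε maxForms X).ncard : ℝ) / X) atTop
      (𝓝 (maxDensity * mainConst ε)) := by
  obtain ⟨C, hC, hb⟩ := exists_badAt_bound ε
  rw [Metric.tendsto_atTop']
  intro η hη
  have hy : Tendsto (fun Y : ℕ => C * ((Y : ℝ) - 1)⁻¹) atTop (𝓝 0) := by
    have : Tendsto (fun Y : ℕ => ((Y : ℝ) - 1)) atTop atTop :=
      tendsto_atTop_add_const_right _ _ tendsto_natCast_atTop_atTop
    simpa using this.inv_tendsto_atTop.const_mul C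
  have hd := tendsto_localFactor.mul_const (mainConst ε)
  obtain ⟨Y, hY2, hY3, hY1⟩ := ((eventually_ge_atTop 2).and
    ((hy.eventually_le_const (by linarith : (0 : ℝ) < η / 3)).and
    (hd.eventually (Metric.ball_mem_nhds _ (by linarith : (0 : ℝ) < η / 3))))).exists
  have hY1' : dist ((∏ p ∈ Y.primesBelow, localFactor p) * mainConst ε)
      (maxDensity * mainConst ε) < η / 3 := hY1
  rw [Real.dist_eq, abs_lt] at hY1'
  obtain ⟨h0, hper, hdens⟩ := maxAtSet_facts Y.primesBelow fun p => Nat.prime_of_mem_primesBelow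
  have ht := tendsto_classes ε h0 (invariant_maxAtSet _) hper
  rw [hdens] at ht
  have key : ∀ᶠ X : ℝ in atTop, dist (((classes ε maxForms X).ncard : ℝ) / X)
      (maxDensity * mainConst ε) < η := by
    filter_upwards [ht.eventually (Metric.ball_mem_nhds _ (by linarith : (0 : ℝ) < η / 3)),
      eventually_gt_atTop (0 : ℝ)] with X hX hX0
    obtain ⟨s1, s2⟩ := sieve_step ε hC hb hY2 hX0.le
    have hX' : dist (((classes ε (maxAtSet Y.primesBelow) X).ncard : ℝ) / X)
        ((∏ p ∈ Y.primesBelow, localFactor p) * mainConst ε) < η / 3 := hX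
    rw [Real.dist_eq, abs_lt] at hX'
    have u : ((classes ε maxForms X).ncard : ℝ) / X ≤
        ((classes ε (maxAtSet Y.primesBelow) X).ncard : ℝ) / X := by gcongr
    have l : ((classes ε (maxAtSet Y.primesBelow) X).ncard : ℝ) / X ≤
        ((classes ε maxForms X).ncard : ℝ) / X + C * ((Y : ℝ) - 1)⁻¹ := by
      rw [div_add' _ _ _ hX0.ne']
      gcongr
      linarith
    rw [Real.dist_eq, abs_lt]
    constructor <;> linarith
  obtain ⟨X₀, h⟩ := eventually_atTop.mp key
  exact ⟨X₀, fun X hX => h X hX.le⟩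

end FA.CubicFields
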