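import Fermat.Agent.CubicFields.Sieve
import Fermat.Agent.DeloneFaddeev.Domain
import Fermat.Agent.DeloneFaddeev.Finite
import Mathlib.NumberTheory.NumberField.Discriminant.Defs
import Mathlib.RingTheory.AdjoinRoot
import Mathlib.Algebra.Polynomial.SpecificDegree

/-!
# Cubic fields and maximal classes

The ring of integers of a cubic field is the ring of a form that is maximal at every prime, and
every anisotropic such form arises: its ring embeds in the field of a root of the form.
-/

set_option autoImplicit false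

noncomputable section

open Module NumberField
open FA.Thue FA.DeloneFaddeev FA.CubicFormCount

namespace FA.CubicFields

theorem det_homMat_ne_zero {f g : CubicForm} (φ : CubicOrder f →+* CubicOrder g)
    (hφ : Function.Injective φ) : (CubicOrder.homMat φ).det ≠ 0 := by
  set M := CubicOrder.homMat φ with hM
  intro h0
  obtain ⟨v, hv, hv0⟩ := Matrix.exists_mulVec_eq_zero_iff.mpr h0
  have k0 := congrFun hv0 0
  have k1 := congrFun hv0 1
  simp [Matrix.mulVec, dotProduct, Fin.sum_univ_two] at k0 k1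
  set x : CubicOrder f := ⟨0, v 0, v 1⟩
  have hx : φ x = ((φ x).re : CubicOrder g) := by
    ext <;> simp [CubicOrder.apply_cw, CubicOrder.apply_ct, x, k0, k1, M]
  have := hφ (a₁ := x) (a₂ := ((φ x).re : CubicOrder f)) (by rw [map_intCast]; exact hx)
  have c1 := congrArg (fun z : CubicOrder f => z.cw) this
  have c2 := congrArg (fun z : CubicOrder f => z.ct) this
  simp [x] at c1 c2
  exact hv (funext fun i => by fin_cases i <;> simpa)

/-- The ring of integers lies in no larger cubic ring. -/
theorem surjective_of_ringOfIntegers {K : Type} [Field K] [NumberField K] {f g : CubicForm}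
    (e : CubicOrder f ≃+* 𝓞 K) (φ : CubicOrder f →+* CubicOrder g) (hφ : Function.Injective φ) :
    Function.Surjective φ := by
  set H := φ.toAddMonoidHom.range
  set n := H.index with hn
  have hn0 : n ≠ 0 := by
    rw [hn, CubicOrder.index_range φ hφ]
    exact Int.natAbs_ne_zero.mpr (det_homMat_ne_zero φ hφ)
  have hex : ∀ y : CubicOrder g, ∃ x : CubicOrder f, φ x = (n : CubicOrder g) * y := fun y => by
    rw [← nsmul_eq_mul]
    exact H.nsmul_index_mem y
  choose pre hpre using hex
  have hK : ((n : ℕ) : K) ≠ 0 := Nat.cast_ne_zero.mpr hn0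
  let c : CubicOrder f →+* K := (algebraMap (𝓞 K) K).comp e.toRingHom
  have hc : Function.Injective c := fun a b h =>
    e.injective (RingOfIntegers.coe_injective h)
  have hpre1 : pre 1 = (n : CubicOrder f) := hφ (by rw [hpre, map_natCast, mul_one])
  have hadd : ∀ y z, pre (y + z) = pre y + pre z := fun y z => hφ (by
    rw [hpre, map_add, hpre, hpre, mul_add])
  let ψ : CubicOrder g →+* K :=
    { toFun := fun y => c (pre y) / n
      map_one' := by rw [hpre1, map_natCast, div_self hK]
      map_mul' := fun y z => by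
        have h : (n : CubicOrder f) * pre (y * z) = pre y * pre z := hφ (by
          rw [map_mul, map_mul, map_natCast, hpre, hpre, hpre]; ring)
        have h' := congrArg c h
        rw [map_mul, map_mul, map_natCast] at h'
        rw [div_mul_div_comm, ← h', mul_div_mul_left _ _ hK]
      map_zero' := by
        rw [show pre 0 = 0 from hφ (by rw [hpre, map_zero, mul_zero]), map_zero, zero_div]
      map_add' := fun y z => by rw [hadd, map_add, add_div] }
  have hψφ : ∀ x, ψ (φ x) = c x := fun x => by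
    have : pre (φ x) = (n : CubicOrder f) * x := hφ (by rw [hpre, map_mul, map_natCast])
    show c (pre (φ x)) / n = c x
    rw [this, map_mul, map_natCast, mul_div_cancel_left₀ _ hK]
  have hψ : Function.Injective ψ := by
    rw [injective_iff_map_eq_zero]
    intro y hy
    have h1 : pre y = 0 := by
      refine hc ?_
      rw [map_zero]
      exact (div_eq_zero_iff.mp hy).resolve_right hK
    have h2 := hpre y
    rw [h1, map_zero] at h2
    have h3 : ((n : ℤ) : CubicOrder g) * y = 0 := by rw [Int.cast_natCast]; exact h2.symm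
    have e1 := congrArg CubicOrder.re h3
    have e2 := congrArg CubicOrder.cw h3
    have e3 := congrArg CubicOrder.ct h3
    simp [hn0, -Int.cast_natCast] at e1 e2 e3
    ext <;> assumption
  intro y
  have hint : IsIntegral ℤ y := by
    have : Module.Finite ℤ (CubicOrder g) := Module.Finite.of_basis (CubicOrder.basis g)
    exact IsIntegral.of_finite ℤ y
  have hψy : IsIntegral ℤ (ψ y) := hint.map ψ.toIntAlgHom
  obtain ⟨z, hz⟩ : ∃ z : 𝓞 K, algebraMap (𝓞 K) K z = ψ y := ⟨⟨ψ y, hψy⟩, rfl⟩
  refine ⟨e.symm z, hψ ?_⟩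
  rw [hψφ]
  show algebraMap (𝓞 K) K (e (e.symm z)) = _
  rw [e.apply_symm_apply, hz]

theorem maxForms_of_ringOfIntegers {K : Type} [Field K] [NumberField K] {f : CubicForm}
    (e : CubicOrder f ≃+* 𝓞 K) : f ∈ maxForms ∧ f.Anisotropic ∧ f.disc = discr K := by
  refine ⟨fun p hp hbad => ?_, ?_, ?_⟩
  · obtain ⟨g, φ, hφ, hd⟩ := (inLarger_iff hp f).mpr hbad
    have hs := surjective_of_ringOfIntegers e φ hφ
    rw [AddMonoidHom.range_eq_top.mpr hs, AddSubgroup.index_top, Nat.dvd_one] at hd
    exact hp.one_lt.ne' hd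
  · have : IsDomain (CubicOrder f) := e.toMulEquiv.isDomain
    exact (CubicOrder.isDomain_iff f).mp this
  · let b : Basis (Fin 3) ℤ (𝓞 K) := (CubicOrder.basis f).map e.toAddEquiv.toIntLinearEquiv
    rw [← discr_eq_disc b e]
    exact discr_eq_discr K b

theorem exists_form_of_field (K : Type) [Field K] [NumberField K] (h3 : finrank ℚ K = 3) :
    ∃ f : CubicForm, Nonempty (CubicOrder f ≃+* 𝓞 K) := by
  have hr : finrank ℤ (𝓞 K) = 3 := by rw [RingOfIntegers.rank, h3]
  exact CubicOrder.exists_form_of_basis (Module.finBasisOfFinrankEq ℤ (𝓞 K) hr)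

section Root

open Polynomial

/-- `f (X, 1)` over `ℚ`. -/
def rootPoly (f : CubicForm) : ℚ[X] :=
  C (f.a : ℚ) * X ^ 3 + C (f.b : ℚ) * X ^ 2 + C (f.c : ℚ) * X + C (f.d : ℚ)

theorem natDegree_rootPoly {f : CubicForm} (hf : f.Anisotropic) : (rootPoly f).natDegree = 3 := by
  have : (f.a : ℚ) ≠ 0 := Int.cast_ne_zero.mpr hf.a_ne_zero
  rw [rootPoly]
  compute_degree!
  exact hf.a_ne_zero

theorem irreducible_rootPoly {f : CubicForm} (hf : f.Anisotropic) :
    Irreducible (rootPoly f) := by
  refine irreducible_of_degree_le_three_of_not_isRoot (by rw [natDegree_rootPoly hf]; simp)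
    fun x hx => ?_
  simp [rootPoly, Polynomial.IsRoot] at hx
  have h : ((f.eval x.num (x.den : ℤ) : ℤ) : ℚ) = 0 := by
    have hd : (x.den : ℚ) ≠ 0 := Nat.cast_ne_zero.mpr x.den_nz
    have hxn : (x.num : ℚ) = x * x.den := (Rat.mul_den_eq_num x).symm
    simp only [CubicForm.eval, Int.cast_id]
    push_cast
    rw [hxn]
    linear_combination (x.den : ℚ) ^ 3 * hx
  exact x.den_nz (by exact_mod_cast (hf _ _ (Int.cast_eq_zero.mp h)).2)

variable (f : CubicForm)

/-- `r + u ω + v θ ↦ r - u a s + v (-c - b s - a s²)`. -/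
def rootMap : CubicOrder f → AdjoinRoot (rootPoly f) := fun x =>
  (x.re : AdjoinRoot (rootPoly f)) - x.cw * f.a * AdjoinRoot.root (rootPoly f) +
    x.ct * (-(f.c : AdjoinRoot (rootPoly f)) - f.b * AdjoinRoot.root (rootPoly f) -
      f.a * AdjoinRoot.root (rootPoly f) ^ 2)

theorem root_rel : (f.a : AdjoinRoot (rootPoly f)) * AdjoinRoot.root (rootPoly f) ^ 3 +
    f.b * AdjoinRoot.root (rootPoly f) ^ 2 + f.c * AdjoinRoot.root (rootPoly f) + f.d = 0 := by
  have h := AdjoinRoot.eval₂_root (rootPoly f)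
  rw [← h]
  conv_rhs => arg 3; rw [rootPoly]
  simp only [eval₂_add, eval₂_mul, eval₂_C, eval₂_X_pow, eval₂_X]
  simp only [map_intCast]

/-- The embedding in the field of a root. -/
def rootHom : CubicOrder f →+* AdjoinRoot (rootPoly f) where
  toFun := rootMap f
  map_one' := by simp [rootMap]
  map_mul' x y := by
    simp only [rootMap, CubicOrder.mul_re, CubicOrder.mul_cw, CubicOrder.mul_ct]
    push_cast
    linear_combination (-((x.cw : AdjoinRoot (rootPoly f)) * y.ct + x.ct * y.cw) * f.a -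
      (x.ct : AdjoinRoot (rootPoly f)) * y.ct *
        (f.a * AdjoinRoot.root (rootPoly f) + f.b)) * root_rel f
  map_zero' := by simp [rootMap]
  map_add' x y := by simp [rootMap]; ring

theorem rootHom_injective {f : CubicForm} (hf : f.Anisotropic) :
    Function.Injective (rootHom f) := by
  rw [injective_iff_map_eq_zero]
  intro x hx
  have key : ∀ q0 q1 q2 : ℚ,
      AdjoinRoot.mk (rootPoly f) (C q0 + C q1 * X + C q2 * X ^ 2) = 0 →
        q0 = 0 ∧ q1 = 0 ∧ q2 = 0 := by
    intro q0 q1 q2 hmk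
    rw [AdjoinRoot.mk_eq_zero] at hmk
    have hQ0 : C q0 + C q1 * X + C q2 * X ^ 2 = (0 : ℚ[X]) := by
      refine Polynomial.eq_zero_of_dvd_of_natDegree_lt hmk ?_
      rw [natDegree_rootPoly hf, Nat.lt_succ_iff]
      compute_degree
    have e0 := congrArg (fun P : ℚ[X] => P.coeff 0) hQ0
    have e1 := congrArg (fun P : ℚ[X] => P.coeff 1) hQ0
    have e2 := congrArg (fun P : ℚ[X] => P.coeff 2) hQ0
    simp [Polynomial.coeff_C] at e0 e1 e2
    exact ⟨e0, e1, e2⟩
  obtain ⟨e0, e1, e2⟩ := key ((x.re - x.ct * f.c : ℤ) : ℚ) ((-x.cw * f.a - x.ct * f.b : ℤ) : ℚ)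
    ((-x.ct * f.a : ℤ) : ℚ) (by
      rw [← hx]
      simp [rootHom, rootMap]
      ring)
  rw [Int.cast_eq_zero] at e0 e1 e2
  have ha := hf.a_ne_zero
  have hct : x.ct = 0 := by simpa [ha] using e2
  have e0' : x.re = 0 := by simp [hct] at e0; exact e0
  have e1' : x.cw = 0 := by simp [hct, ha] at e1; exact e1
  ext <;> assumption

/-- Every maximal anisotropic form comes from a cubic field. -/
theorem exists_field_of_form {f : CubicForm} (hf : f.Anisotropic) (hmax : f ∈ maxForms) :
    ∃ (K : Type) (_ : Field K) (_ : NumberField K), finrank ℚ K = 3 ∧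
      Nonempty (CubicOrder f ≃+* 𝓞 K) := by
  have : Fact (Irreducible (rootPoly f)) := ⟨irreducible_rootPoly hf⟩
  set K := AdjoinRoot (rootPoly f)
  have hfr : finrank ℚ K = 3 := by
    rw [(AdjoinRoot.powerBasis (irreducible_rootPoly hf).ne_zero).finrank,
      AdjoinRoot.powerBasis_dim, natDegree_rootPoly hf]
  have : FiniteDimensional ℚ K := FiniteDimensional.of_finrank_eq_succ hfr
  have hK : NumberField K := { to_charZero := inferInstance, to_finiteDimensional := this }
  refine ⟨K, inferInstance, hK, hfr, ?_⟩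
  have hint : ∀ x : CubicOrder f, IsIntegral ℤ (rootHom f x) := fun x => by
    have : Module.Finite ℤ (CubicOrder f) := Module.Finite.of_basis (CubicOrder.basis f)
    exact (IsIntegral.of_finite ℤ x).map (rootHom f).toIntAlgHom
  let ψ : CubicOrder f →+* 𝓞 K :=
    { toFun := fun x => ⟨rootHom f x, hint x⟩
      map_one' := RingOfIntegers.ext (map_one (rootHom f))
      map_mul' := fun x y => RingOfIntegers.ext (map_mul (rootHom f) x y)
      map_zero' := RingOfIntegers.ext (map_zero (rootHom f))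
      map_add' := fun x y => RingOfIntegers.ext (map_add (rootHom f) x y) }
  have hψ : Function.Injective ψ := fun x y h =>
    rootHom_injective hf (congrArg (fun z : 𝓞 K => (z : K)) h)
  obtain ⟨g, ⟨e⟩⟩ := exists_form_of_field K hfr
  set χ := e.symm.toRingHom.comp ψ
  have hχ : Function.Injective χ := e.symm.injective.comp hψ
  have hidx : χ.toAddMonoidHom.range.index = 1 := by
    by_contra h
    obtain ⟨p, hp, hd⟩ := Nat.exists_prime_and_dvd h
    exact hmax p hp ((inLarger_iff hp f).mp ⟨g, χ, hχ, hd⟩)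
  have hs : Function.Surjective χ :=
    AddMonoidHom.range_eq_top.mp (AddSubgroup.index_eq_one.mp hidx)
  exact ⟨(RingEquiv.ofBijective χ ⟨hχ, hs⟩).trans e⟩

end Root

theorem fieldEquiv_iff {K L : Type} [Field K] [NumberField K] [Field L] [NumberField L]
    {f g : CubicForm} (e : CubicOrder f ≃+* 𝓞 K) (e' : CubicOrder g ≃+* 𝓞 L) :
    Nonempty (K ≃+* L) ↔ classSet f = classSet g := by
  constructor
  · rintro ⟨σ⟩
    exact classSet_eq ((CubicOrder.nonempty_ringEquiv_iff g f).mp
      ⟨e'.trans ((RingOfIntegers.mapRingEquiv σ).symm.trans e.symm)⟩)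
  · intro h
    obtain ⟨ef⟩ := (CubicOrder.nonempty_ringEquiv_iff g f).mpr (twisted_of_classSet h)
    exact ⟨IsFractionRing.ringEquivOfRingEquiv (e.symm.trans (ef.symm.trans e') : 𝓞 K ≃+* 𝓞 L)⟩

/-- **Cubic fields and maximal classes correspond.** -/
theorem exists_field_system (ε : Bool) (X : ℝ) :
    ∃ (F : Fin (classes ε maxForms X).ncard → Type) (_ : ∀ i, Field (F i))
      (_ : ∀ i, NumberField (F i)),
      (∀ i, finrank ℚ (F i) = 3 ∧ 0 < sgn ε * discr (F i) ∧ sgn ε * discr (F i) ≤ X) ∧
      (∀ i j, Nonempty (F i ≃+* F j) → i = j) ∧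
      ∀ (L : Type) [Field L] [NumberField L], finrank ℚ L = 3 → 0 < sgn ε * discr L →
        sgn ε * discr L ≤ X → ∃ i, Nonempty (F i ≃+* L) := by
  have hfin := classes_finite ε maxForms X
  let idx : Fin (classes ε maxForms X).ncard ≃ ↥hfin.toFinset :=
    (finCongr (Set.ncard_eq_toFinset_card _ hfin)).trans hfin.toFinset.equivFin.symm
  have hch : ∀ i, ∃ f : CubicForm, f ∈ maxForms ∧ f.Anisotropic ∧ 0 < sgn ε * f.disc ∧
      sgn ε * f.disc ≤ X ∧ (idx i : Set CubicForm) = classSet f := fun i =>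
    hfin.mem_toFinset.mp (idx i).2
  choose r hr1 hr2 hr3 hr4 hr5 using hch
  choose F hF hN hdeg he using fun i => exists_field_of_form (hr2 i) (hr1 i)
  refine ⟨F, hF, hN, fun i => ?_, fun i j h => ?_, fun L _ _ h3 h0 h1 => ?_⟩
  · obtain ⟨e⟩ := he i
    obtain ⟨-, -, hd⟩ := maxForms_of_ringOfIntegers e
    rw [← hd]
    exact ⟨hdeg i, hr3 i, hr4 i⟩
  · obtain ⟨e⟩ := he i
    obtain ⟨e'⟩ := he j
    refine idx.injective (Subtype.ext ?_)
    rw [hr5, hr5]
    exact (fieldEquiv_iff e e').mp h
  · obtain ⟨g, ⟨e'⟩⟩ := exists_form_of_field L h3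
    obtain ⟨hm, ha, hd⟩ := maxForms_of_ringOfIntegers e'
    rw [← hd] at h0 h1
    obtain ⟨i, hi⟩ := idx.surjective ⟨classSet g, hfin.mem_toFinset.mpr ⟨g, hm, ha, h0, h1, rfl⟩⟩
    obtain ⟨e⟩ := he i
    refine ⟨i, (fieldEquiv_iff e e').mpr ?_⟩
    rw [← hr5, hi]

end FA.CubicFields
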