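import Fermat.Agent.CubicFormCount.Main
import Fermat.Agent.DeloneFaddeev.Maximal

/-!
# The local density of non-maximal forms

`NonmaximalForm p f` means: `p` divides `f`, or at exactly one point of the projective line mod `p`
the moved form has `p² ∣ a` and `p ∣ b`. So it depends on `f` mod `p²` and holds for exactly
`p⁶ + p⁵ - p³` residues.
-/

set_option autoImplicit false

noncomputable section

open FA.Thue FA.DeloneFaddeev FA.CubicFormCount
open scoped Classical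

namespace FA.CubicFields

/-- The forms that are non-maximal at `p`. -/
def badAt (p : ℕ) : Set CubicForm := {f | NonmaximalForm p f}

/-- `p` divides the form. -/
def AllDvd (p : ℤ) (f : CubicForm) : Prop := p ∣ f.a ∧ p ∣ f.b ∧ p ∣ f.c ∧ p ∣ f.d

/-- `p² ∣ a` and `p ∣ b`. -/
def TopDvd (p : ℤ) (f : CubicForm) : Prop := p ^ 2 ∣ f.a ∧ p ∣ f.b

/-- A matrix with first column the point. -/
def colMat : Option ℕ → Matrix (Fin 2) (Fin 2) ℤ
  | none => 1
  | some t => !![(t : ℤ), -1; 1, 0]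

theorem det_colMat (o : Option ℕ) : (colMat o).det = 1 := by
  cases o <;> simp [colMat, Matrix.det_fin_two]

/-- Coefficientwise congruence. -/
def FormCongr (q : ℤ) (f g : CubicForm) : Prop :=
  q ∣ f.a - g.a ∧ q ∣ f.b - g.b ∧ q ∣ f.c - g.c ∧ q ∣ f.d - g.d

theorem FormCongr.symm {q : ℤ} {f g : CubicForm} (h : FormCongr q f g) : FormCongr q g f :=
  ⟨dvd_sub_comm.mp h.1, dvd_sub_comm.mp h.2.1, dvd_sub_comm.mp h.2.2.1, dvd_sub_comm.mp h.2.2.2⟩

theorem FormCongr.trans {q : ℤ} {f g h : CubicForm} (h1 : FormCongr q f g)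
    (h2 : FormCongr q g h) : FormCongr q f h :=
  ⟨by simpa using dvd_add h1.1 h2.1, by simpa using dvd_add h1.2.1 h2.2.1,
    by simpa using dvd_add h1.2.2.1 h2.2.2.1, by simpa using dvd_add h1.2.2.2 h2.2.2.2⟩

theorem formCongr_actMat {q : ℤ} {f g : CubicForm} (h : FormCongr q f g)
    (M : Matrix (Fin 2) (Fin 2) ℤ) : FormCongr q (actMat f M) (actMat g M) := by
  obtain ⟨⟨A, hA⟩, ⟨B, hB⟩, ⟨C, hC⟩, ⟨D, hD⟩⟩ := h
  obtain ⟨a, b, c, d⟩ := g
  obtain ⟨a', b', c', d'⟩ := f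
  simp only at hA hB hC hD
  obtain rfl : a' = a + q * A := by linarith
  obtain rfl : b' = b + q * B := by linarith
  obtain rfl : c' = c + q * C := by linarith
  obtain rfl : d' = d + q * D := by linarith
  refine ⟨⟨(actMat ⟨A, B, C, D⟩ M).a, ?_⟩, ⟨(actMat ⟨A, B, C, D⟩ M).b, ?_⟩,
    ⟨(actMat ⟨A, B, C, D⟩ M).c, ?_⟩, ⟨(actMat ⟨A, B, C, D⟩ M).d, ?_⟩⟩ <;>
    simp only [actMat, CubicForm.act, CubicForm.eval, Int.cast_id] <;> ring

theorem allDvd_congr {p : ℤ} {f g : CubicForm} (h : FormCongr p f g) (hf : AllDvd p f) :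
    AllDvd p g :=
  ⟨(dvd_sub_right hf.1).mp h.1, (dvd_sub_right hf.2.1).mp h.2.1,
    (dvd_sub_right hf.2.2.1).mp h.2.2.1, (dvd_sub_right hf.2.2.2).mp h.2.2.2⟩

theorem topDvd_congr {p : ℤ} {f g : CubicForm} (h : FormCongr (p ^ 2) f g) (hf : TopDvd p f) :
    TopDvd p g :=
  ⟨(dvd_sub_right hf.1).mp h.1,
    (dvd_sub_right hf.2).mp ((dvd_pow_self p two_ne_zero).trans h.2.1)⟩

theorem FormCongr.of_dvd {p q : ℤ} (hpq : p ∣ q) {f g : CubicForm} (h : FormCongr q f g) :
    FormCongr p f g :=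
  ⟨hpq.trans h.1, hpq.trans h.2.1, hpq.trans h.2.2.1, hpq.trans h.2.2.2⟩

theorem allDvd_actMat {p : ℤ} {f : CubicForm} (h : AllDvd p f) (M : Matrix (Fin 2) (Fin 2) ℤ) :
    AllDvd p (actMat f M) := by
  have h0 : FormCongr p f ⟨0, 0, 0, 0⟩ := by
    simpa [FormCongr, AllDvd] using h
  have := formCongr_actMat h0 M
  simpa [FormCongr, AllDvd, actMat, CubicForm.act, CubicForm.eval] using this

theorem actMat_adjugate {f : CubicForm} {M : Matrix (Fin 2) (Fin 2) ℤ} (h : M.det = 1) :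
    actMat (actMat f M) M.adjugate = f := by
  rw [actMat_mul, Matrix.mul_adjugate, h, one_smul, actMat_one]

variable {p : ℕ}

theorem periodic_badAt (p : ℕ) : PeriodicSet (p ^ 2) (badAt p) := by
  intro v w h hv
  have hc : FormCongr (((p : ℤ)) ^ 2) (mkForm v) (mkForm w) := by
    have h' : ∀ i, ((p : ℤ)) ^ 2 ∣ v i - w i := fun i => by simpa using h i
    exact ⟨h' 0, h' 1, h' 2, h' 3⟩
  rcases hv with hall | ⟨g, ⟨M, hM, rfl⟩, hg⟩
  · exact Or.inl (allDvd_congr (hc.of_dvd (dvd_pow_self _ two_ne_zero)) hall)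
  · refine Or.inr ⟨_, ⟨M, hM, rfl⟩, ?_⟩
    have hu : ∀ (k : ℤ) (F : CubicForm), IsUnit k →
        (TopDvd (p : ℤ) (scale k F) ↔ TopDvd (p : ℤ) F) :=
      fun k F hk => by simp [TopDvd, scale, hk.dvd_mul_left]
    exact (hu _ _ hM).mpr (topDvd_congr (formCongr_actMat hc M) ((hu _ _ hM).mp hg))

theorem invariant_badAt (p : ℕ) : ∀ f g, Twisted f g → f ∈ badAt p → g ∈ badAt p := by
  intro f g h hf
  rcases hf with hall | ⟨g', h', hg'⟩
  · exact Or.inl (h.dvd hall.1 hall.2.1 hall.2.2.1 hall.2.2.2)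
  · exact Or.inr ⟨g', h.symm.trans h', hg'⟩

/-- Moving the point does not change the condition as long as it stays fixed mod `p`. -/
theorem topDvd_fixed (hp : p.Prime) {h : CubicForm} {N : Matrix (Fin 2) (Fin 2) ℤ}
    (hN : IsUnit N.det) (h10 : (p : ℤ) ∣ N 1 0) (hg : TopDvd (p : ℤ) (actMat h N)) :
    TopDvd (p : ℤ) h := by
  have hP : Prime (p : ℤ) := Nat.prime_iff_prime_int.mp hp
  obtain ⟨k, hk⟩ := h10
  have h00 : ¬ (p : ℤ) ∣ N 0 0 * N 1 1 := by
    intro hd
    refine hP.not_isUnit (isUnit_of_dvd_unit ?_ hN)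
    rw [Matrix.det_fin_two, hk]
    exact dvd_sub hd (Dvd.dvd.mul_left (Dvd.intro k rfl) _)
  obtain ⟨hn0, hn1⟩ : ¬ (p : ℤ) ∣ N 0 0 ∧ ¬ (p : ℤ) ∣ N 1 1 :=
    ⟨fun hd => h00 (Dvd.dvd.mul_right hd _), fun hd => h00 (Dvd.dvd.mul_left hd _)⟩
  obtain ⟨⟨A, hA⟩, ⟨B, hB⟩⟩ := hg
  simp only [actMat, CubicForm.act, CubicForm.eval, Int.cast_id, hk] at hA hB
  have ha : (p : ℤ) ∣ h.a * N 0 0 ^ 3 :=
    ⟨p * A - h.b * N 0 0 ^ 2 * k - h.c * N 0 0 * k ^ 2 * p - h.d * k ^ 3 * p ^ 2,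
      by linear_combination hA⟩
  obtain ⟨a₁, ha₁⟩ := (hP.dvd_or_dvd ha).resolve_right fun hd => hn0 (hP.dvd_of_dvd_pow hd)
  have hb : (p : ℤ) ∣ h.b * (N 0 0 ^ 2 * N 1 1) :=
    ⟨B - 3 * a₁ * N 0 0 ^ 2 * N 0 1 - h.b * 2 * N 0 0 * N 0 1 * k -
        h.c * (N 0 1 * p * k ^ 2 + 2 * N 0 0 * k * N 1 1) - 3 * h.d * p * k ^ 2 * N 1 1,
      by rw [ha₁] at hB; linear_combination hB⟩
  have hb' : (p : ℤ) ∣ h.b := (hP.dvd_or_dvd hb).resolve_right fun hd =>
    (hP.dvd_or_dvd hd).elim (fun hd => hn0 (hP.dvd_of_dvd_pow hd)) hn1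
  obtain ⟨b₁, hb₁⟩ := hb'
  refine ⟨hP.pow_dvd_of_dvd_mul_right 2 (fun hd => hn0 (hP.dvd_of_dvd_pow (n := 3) hd)) ?_,
    b₁, hb₁⟩
  exact ⟨A - b₁ * N 0 0 ^ 2 * k - h.c * N 0 0 * k ^ 2 - h.d * p * k ^ 3,
    by rw [hb₁] at hA; linear_combination hA⟩

/-- Two different points force `p ∣ f`. -/
theorem topDvd_two (hp : p.Prime) {h : CubicForm} {N : Matrix (Fin 2) (Fin 2) ℤ}
    (hN : N.det = 1) (h10 : ¬ (p : ℤ) ∣ N 1 0) (hh : TopDvd (p : ℤ) h)
    (hg : TopDvd (p : ℤ) (actMat h N)) : AllDvd (p : ℤ) h := by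
  have hP : Prime (p : ℤ) := Nat.prime_iff_prime_int.mp hp
  rw [Matrix.det_fin_two] at hN
  obtain ⟨⟨a₁, ha⟩, ⟨b₁, hb⟩⟩ := hh
  obtain ⟨⟨A, hA⟩, ⟨B, hB⟩⟩ := hg
  simp only [actMat, CubicForm.act, CubicForm.eval, Int.cast_id, ha, hb] at hA hB
  have hpa : (p : ℤ) ∣ h.a := ⟨p * a₁, by rw [ha]; ring⟩
  have hc : (p : ℤ) ∣ h.c * N 1 0 ^ 2 :=
    ⟨3 * N 1 1 * (p * A - p * a₁ * N 0 0 ^ 3 - b₁ * N 0 0 ^ 2 * N 1 0) -
        N 1 0 * (B - 3 * p * a₁ * N 0 0 ^ 2 * N 0 1 -
          b₁ * (N 0 0 ^ 2 * N 1 1 + 2 * N 0 0 * N 0 1 * N 1 0)),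
      by linear_combination (3 * N 1 1) * hA - N 1 0 * hB - h.c * N 1 0 ^ 2 * hN⟩
  obtain ⟨c₁, hc₁⟩ := (hP.dvd_or_dvd hc).resolve_right fun hd => h10 (hP.dvd_of_dvd_pow hd)
  have hd : (p : ℤ) ∣ h.d * N 1 0 ^ 3 :=
    ⟨p * A - p * a₁ * N 0 0 ^ 3 - b₁ * N 0 0 ^ 2 * N 1 0 - c₁ * N 0 0 * N 1 0 ^ 2,
      by rw [hc₁] at hA; linear_combination hA⟩
  exact ⟨hpa, ⟨b₁, hb⟩, ⟨c₁, hc₁⟩,
    (hP.dvd_or_dvd hd).resolve_right fun hd => h10 (hP.dvd_of_dvd_pow hd)⟩

/-- The lower left entry of `colMat o⁻¹ · M`. -/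
theorem adjugate_mul_lower (o : Option ℕ) (M : Matrix (Fin 2) (Fin 2) ℤ) :
    ((colMat o).adjugate * M) 1 0 =
      match o with
      | none => M 1 0
      | some t => (t : ℤ) * M 1 0 - M 0 0 := by
  cases o <;> simp [colMat, Matrix.adjugate_fin_two, Matrix.mul_apply, Fin.sum_univ_two] <;> ring

theorem exists_point (hp : p.Prime) {M : Matrix (Fin 2) (Fin 2) ℤ} :
    ∃ o ∈ Finset.insertNone (Finset.range p), (p : ℤ) ∣ ((colMat o).adjugate * M) 1 0 := by
  have hp0 : (p : ℤ) ≠ 0 := by exact_mod_cast hp.ne_zero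
  by_cases h : (p : ℤ) ∣ M 1 0
  · exact ⟨none, by simp, by rw [adjugate_mul_lower]; exact h⟩
  · obtain ⟨u, v, huv⟩ := (Nat.prime_iff_prime_int.mp hp).coprime_iff_not_dvd.mpr h
    refine ⟨some ((M 0 0 * v) % p).toNat, ?_, ?_⟩
    · simp only [Finset.some_mem_insertNone, Finset.mem_range]
      have := Int.emod_lt_of_pos (M 0 0 * v) (by exact_mod_cast hp.pos : (0 : ℤ) < p)
      omega
    · rw [adjugate_mul_lower]
      simp only
      rw [Int.toNat_of_nonneg (Int.emod_nonneg _ hp0), Int.emod_def]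
      exact ⟨-(M 0 0 * u) - M 0 0 * v / p * M 1 0, by linear_combination (M 0 0) * huv⟩

theorem mem_badAt_iff (hp : p.Prime) (f : CubicForm) :
    f ∈ badAt p ↔ AllDvd (p : ℤ) f ∨
      ∃ o ∈ Finset.insertNone (Finset.range p), TopDvd (p : ℤ) (actMat f (colMat o)) := by
  constructor
  · rintro (h | ⟨g, ⟨M, hM, rfl⟩, hg⟩)
    · exact Or.inl h
    · obtain ⟨o, ho, hdvd⟩ := exists_point hp (M := M)
      refine Or.inr ⟨o, ho, topDvd_fixed hp (N := (colMat o).adjugate * M) ?_ hdvd ?_⟩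
      · rw [Matrix.det_mul, Matrix.det_adjugate, det_colMat]
        simpa using hM
      · rw [actMat_mul, ← Matrix.mul_assoc, Matrix.mul_adjugate, det_colMat, one_smul,
          Matrix.one_mul]
        simpa [TopDvd, scale, hM.dvd_mul_left] using hg
  · rintro (h | ⟨o, -, h⟩)
    · exact Or.inl h
    · refine Or.inr ⟨_, ⟨colMat o, by rw [det_colMat]; exact isUnit_one, rfl⟩, ?_⟩
      rw [det_colMat, scale_one]
      exact h

theorem point_unique (hp : p.Prime) {f : CubicForm} (hf : ¬ AllDvd (p : ℤ) f) {o o' : Option ℕ}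
    (ho : o ∈ Finset.insertNone (Finset.range p)) (ho' : o' ∈ Finset.insertNone (Finset.range p))
    (h : TopDvd (p : ℤ) (actMat f (colMat o))) (h' : TopDvd (p : ℤ) (actMat f (colMat o'))) :
    o = o' := by
  by_contra hne
  refine hf ?_
  have hN : ¬ (p : ℤ) ∣ ((colMat o).adjugate * colMat o') 1 0 := by
    rw [adjugate_mul_lower]
    have hp2 := hp.two_le
    cases o with
    | none =>
      cases o' with
      | none => exact absurd rfl hne
      | some t =>
        simp [colMat]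
        exact fun hd => by have := Int.le_of_dvd one_pos hd; omega
    | some t =>
      cases o' with
      | none =>
        simp [colMat]
        exact fun hd => by have := Int.le_of_dvd one_pos hd; omega
      | some t' =>
        simp only [Finset.some_mem_insertNone, Finset.mem_range] at ho ho'
        simp [colMat]
        intro hd
        apply hne
        have := Int.eq_zero_of_abs_lt_dvd hd (by rw [abs_lt]; omega)
        congr 1
        omega
  have key := topDvd_two hp (h := actMat f (colMat o)) (by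
      rw [Matrix.det_mul, Matrix.det_adjugate, det_colMat, det_colMat]; simp) hN h
    (by rw [actMat_mul, ← Matrix.mul_assoc, Matrix.mul_adjugate, det_colMat, one_smul,
      Matrix.one_mul]; exact h')
  have := allDvd_actMat key (colMat o).adjugate
  rwa [actMat_adjugate (det_colMat o)] at this

/-- The multiples of `p` below `p²`. -/
def multiples (p : ℕ) : Finset ℤ := (Finset.range p).image fun k : ℕ => (p : ℤ) * k

theorem mem_multiples (hp : 0 < p) {x : ℤ} :
    x ∈ multiples p ↔ x ∈ Finset.Ico (0 : ℤ) (p ^ 2 : ℕ) ∧ (p : ℤ) ∣ x := by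
  simp only [multiples, Finset.mem_image, Finset.mem_range, Finset.mem_Ico]
  push_cast
  constructor
  · rintro ⟨k, hk, rfl⟩
    have : (k : ℤ) < p := by exact_mod_cast hk
    exact ⟨⟨by positivity, by rw [sq]; exact mul_lt_mul_of_pos_left this (by exact_mod_cast hp)⟩,
      Dvd.intro _ rfl⟩
  · rintro ⟨⟨h0, h1⟩, k, rfl⟩
    have hk0 : 0 ≤ k := nonneg_of_mul_nonneg_right h0 (by exact_mod_cast hp)
    have hk : k < p := by rw [sq] at h1; exact lt_of_mul_lt_mul_left h1 (by positivity)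
    exact ⟨k.toNat, by omega, by rw [Int.toNat_of_nonneg hk0]⟩

theorem card_multiples (hp : 0 < p) : (multiples p).card = p := by
  rw [multiples, Finset.card_image_of_injective _ fun a b h => ?_, Finset.card_range]
  exact_mod_cast mul_left_cancel₀ (by exact_mod_cast hp.ne' : (p : ℤ) ≠ 0) h

/-- The residues of the forms with `p² ∣ a`, `p ∣ b` and not `p ∣ f`. -/
def topResidues (p : ℕ) (o : Option ℕ) : Finset (Fin 4 → ℤ) :=
  residues (p ^ 2) {f | TopDvd (p : ℤ) (actMat f (colMat o)) ∧ ¬ AllDvd (p : ℤ) f}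

theorem mem_residues {m : ℕ} {Q : Set CubicForm} {v : Fin 4 → ℤ} :
    v ∈ residues m Q ↔ (∀ i, v i ∈ Finset.Ico (0 : ℤ) m) ∧ mkForm v ∈ Q := by
  simp [residues, Fintype.mem_piFinset]

theorem card_topResidues_none (hp : p.Prime) :
    (topResidues p none).card + p ^ 3 = p ^ 5 := by
  set I := Finset.Ico (0 : ℤ) (p ^ 2 : ℕ)
  set K := multiples p
  set big := Fintype.piFinset ![({0} : Finset ℤ), K, I, I]
  set small := Fintype.piFinset ![({0} : Finset ℤ), K, K, K]
  have hKI : K ⊆ I := fun x hx => ((mem_multiples hp.pos).mp hx).1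
  have hsub : small ⊆ big := by
    refine Fintype.piFinset_subset _ _ fun i => ?_
    fin_cases i <;> simp [hKI]
  have he : topResidues p none = big \ small := by
    ext v
    simp only [topResidues, mem_residues, Finset.mem_sdiff, big, small, Fintype.mem_piFinset,
      Fin.forall_fin_succ, colMat, actMat_one, Set.mem_ofPred_eq, TopDvd, AllDvd, mkForm]
    simp [K, mem_multiples hp.pos, I]
    constructor
    · rintro ⟨⟨⟨a0, a1⟩, hb, hc, hd⟩, ⟨ha, hb'⟩, hn⟩
      have : v 0 = 0 := Int.eq_zero_of_abs_lt_dvd ha (by rw [abs_lt]; constructor <;> nlinarith)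
      refine ⟨⟨this, ⟨hb, hb'⟩, hc, hd⟩, fun _ _ _ _ _ _ hc' _ _ hd' => hn ?_ hb' hc' hd'⟩
      rw [this]; exact dvd_zero _
    · rintro ⟨⟨ha, ⟨hb, hb'⟩, hc, hd⟩, hn⟩
      refine ⟨⟨?_, hb, hc, hd⟩, ⟨?_, hb'⟩, ?_⟩
      · rw [ha]; exact ⟨le_rfl, by positivity [hp.ne_zero]⟩
      · rw [ha]; exact dvd_zero _
      · intro _ _ hc' hd'
        exact hn ha hb.1 hb.2 hb' hc.1 hc.2 hc' hd.1 hd.2 hd'
  have hb : big.card = p ^ 5 := by
    rw [Fintype.card_piFinset, Fin.prod_univ_four]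
    simp [K, I, card_multiples hp.pos, Int.card_Ico]
    rw [show ((p : ℤ) ^ 2).toNat = p ^ 2 by rw [← Nat.cast_pow, Int.toNat_natCast]]
    ring
  have hs : small.card = p ^ 3 := by
    rw [Fintype.card_piFinset, Fin.prod_univ_four]
    simp [K, card_multiples hp.pos]
    ring
  rw [he, ← hs, Finset.card_sdiff_add_card_eq_card hsub, hb]

theorem card_topResidues (hp : p.Prime) (o : Option ℕ) :
    (topResidues p o).card = (topResidues p none).card := by
  set q : ℕ := p ^ 2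
  have hq : (0 : ℤ) < q := by exact_mod_cast pow_pos hp.pos 2
  have hpq : (p : ℤ) ∣ (q : ℤ) := ⟨p, by simp [q]; ring⟩
  have hq2 : (q : ℤ) = (p : ℤ) ^ 2 := by simp [q]
  let red : CubicForm → (Fin 4 → ℤ) := fun f i => coeffs f i % q
  have hred : ∀ f, FormCongr (q : ℤ) (mkForm (red f)) f := fun f => by
    refine ⟨?_, ?_, ?_, ?_⟩ <;>
      exact dvd_sub_comm.mp Int.dvd_self_sub_emod
  have hmem : ∀ f i, red f i ∈ Finset.Ico (0 : ℤ) q := fun f i =>
    Finset.mem_Ico.mpr ⟨Int.emod_nonneg _ hq.ne', Int.emod_lt_of_pos _ hq⟩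
  have hinv : ∀ (v : Fin 4 → ℤ), (∀ i, v i ∈ Finset.Ico (0 : ℤ) q) →
      ∀ M : Matrix (Fin 2) (Fin 2) ℤ, M.det = 1 →
        red (actMat (mkForm (red (actMat (mkForm v) M))) M.adjugate) = v := by
    intro v hv M hM
    have h := formCongr_actMat (hred (actMat (mkForm v) M)) M.adjugate
    rw [actMat_adjugate hM] at h
    funext i
    have hi : (q : ℤ) ∣
        coeffs (actMat (mkForm (red (actMat (mkForm v) M))) M.adjugate) i - v i := by
      fin_cases i <;> [exact h.1; exact h.2.1; exact h.2.2.1; exact h.2.2.2]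
    have hb := Finset.mem_Ico.mp (hv i)
    show _ % (q : ℤ) = _
    rw [← Int.emod_eq_of_lt hb.1 hb.2]
    exact (Int.ModEq.symm (Int.modEq_of_dvd hi))
  unfold topResidues
  refine Finset.card_bij' (fun v _ => red (actMat (mkForm v) (colMat o)))
    (fun v _ => red (actMat (mkForm v) (colMat o).adjugate)) ?_ ?_ ?_ ?_
  · intro v hv
    obtain ⟨-, ht, hn⟩ := mem_residues.mp hv
    refine mem_residues.mpr ⟨hmem _, ?_, fun ha => hn ?_⟩
    · simp only [colMat, actMat_one]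
      exact topDvd_congr (by rw [← hq2]; exact (hred _).symm) ht
    · have := allDvd_actMat (allDvd_congr ((hred _).of_dvd hpq) ha) (colMat o).adjugate
      rwa [actMat_adjugate (det_colMat o)] at this
  · intro v hv
    obtain ⟨-, ht, hn⟩ := mem_residues.mp hv
    simp only [colMat, actMat_one] at ht
    have hc := formCongr_actMat (hred (actMat (mkForm v) (colMat o).adjugate)) (colMat o)
    rw [actMat_mul, Matrix.adjugate_mul, det_colMat, one_smul, actMat_one] at hc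
    refine mem_residues.mpr ⟨hmem _, ?_, fun ha => hn ?_⟩
    · exact topDvd_congr (by rw [← hq2]; exact hc.symm) ht
    · exact allDvd_congr (hc.of_dvd hpq) (allDvd_actMat ha _)
  · intro v hv
    exact hinv v (mem_residues.mp hv).1 _ (det_colMat o)
  · intro v hv
    have h : (colMat o).adjugate.adjugate = colMat o := by
      rw [Matrix.adjugate_adjugate _ (by simp), det_colMat]; simp
    have := hinv v (mem_residues.mp hv).1 (colMat o).adjugate (by
      rw [Matrix.det_adjugate, det_colMat]; simp)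
    rwa [h] at this

/-- **The local count**: `p⁶ + p⁵ - p³` residues modulo `p²` are non-maximal at `p`. -/
theorem card_residues_badAt (hp : p.Prime) :
    (residues (p ^ 2) (badAt p)).card + p ^ 3 = p ^ 6 + p ^ 5 := by
  set A := residues (p ^ 2) {f | AllDvd (p : ℤ) f}
  set P := Finset.insertNone (Finset.range p)
  have he : residues (p ^ 2) (badAt p) = A ∪ P.biUnion (topResidues p) := by
    ext v
    simp only [Finset.mem_union, Finset.mem_biUnion, A, topResidues, mem_residues,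
      Set.mem_ofPred_eq, mem_badAt_iff hp]
    constructor
    · rintro ⟨hb, h | ⟨o, ho, h⟩⟩
      · exact Or.inl ⟨hb, h⟩
      · by_cases hA : AllDvd (p : ℤ) (mkForm v)
        · exact Or.inl ⟨hb, hA⟩
        · exact Or.inr ⟨o, ho, hb, h, hA⟩
    · rintro (⟨hb, h⟩ | ⟨o, ho, hb, h, -⟩)
      · exact ⟨hb, Or.inl h⟩
      · exact ⟨hb, Or.inr ⟨o, ho, h⟩⟩
  have hdA : Disjoint A (P.biUnion (topResidues p)) := by
    rw [Finset.disjoint_biUnion_right]
    refine fun o _ => Finset.disjoint_left.mpr fun v h1 h2 => ?_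
    exact (mem_residues.mp h2).2.2 (mem_residues.mp h1).2
  have hA : A.card = p ^ 4 := by
    have : A = Fintype.piFinset fun _ : Fin 4 => multiples p := by
      ext v
      simp only [A, mem_residues, Fintype.mem_piFinset, mem_multiples hp.pos, Set.mem_ofPred_eq]
      exact ⟨fun ⟨hb, h⟩ i => ⟨hb i, by fin_cases i <;> [exact h.1; exact h.2.1; exact h.2.2.1;
        exact h.2.2.2]⟩, fun h => ⟨fun i => (h i).1, (h 0).2, (h 1).2, (h 2).2, (h 3).2⟩⟩
    rw [this, Fintype.card_piFinset_const, card_multiples hp.pos]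
  rw [he, Finset.card_union_of_disjoint hdA, Finset.card_biUnion, hA,
    Finset.sum_congr rfl fun o _ => card_topResidues hp o, Finset.sum_const, smul_eq_mul,
    Finset.card_insertNone, Finset.card_range]
  · have h := card_topResidues_none hp
    have h2 := congrArg (fun n => (p + 1) * n) h
    nlinarith [h2]
  · intro o ho o' ho' hne
    refine Finset.disjoint_left.mpr fun v h1 h2 => hne ?_
    exact point_unique hp (mem_residues.mp h1).2.2 ho ho' (mem_residues.mp h1).2.1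
      (mem_residues.mp h2).2.1

end FA.CubicFields
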