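import Fermat.Agent.CubicFields.Local
import Mathlib.Algebra.Field.ZMod

/-!
# The uniformity estimate

The classes that are non-maximal at `p` with `0 < ± disc ≤ X` are `O (X / p²)`, uniformly in `p`:
such a class is `p` times a form or comes from a root mod `p` of a form of discriminant `disc / p²`.
-/

set_option autoImplicit false

noncomputable section

open FA.Thue FA.DeloneFaddeev FA.CubicFormCount Filter
open scoped Classical Topology

namespace FA.CubicFields

/-- A matrix moving `(0, 1)` to the point. -/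
def rootMat : Option ℕ → Matrix (Fin 2) (Fin 2) ℤ
  | none => !![0, 1; -1, 0]
  | some t => !![1, (t : ℤ); 0, 1]

theorem det_rootMat (o : Option ℕ) : (rootMat o).det = 1 := by
  cases o <;> simp [rootMat, Matrix.det_fin_two]

/-- The form of the subring of index `p` at the root `(0, 1)` of `h` mod `p`. -/
def backForm (p : ℕ) (h : CubicForm) : CubicForm := ⟨(p : ℤ) ^ 2 * h.a, p * h.b, h.c, h.d / p⟩

theorem twisted_backForm {p : ℕ} (hp : p.Prime) {h : CubicForm}
    {N : Matrix (Fin 2) (Fin 2) ℤ} (hN : IsUnit N.det) (h01 : (p : ℤ) ∣ N 0 1)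
    (hd : (p : ℤ) ∣ (scale N.det (actMat h N)).d) :
    (p : ℤ) ∣ h.d ∧ Twisted (backForm p h) (backForm p (scale N.det (actMat h N))) := by
  have hP : Prime (p : ℤ) := Nat.prime_iff_prime_int.mp hp
  have hp0 : (p : ℤ) ≠ 0 := hP.ne_zero
  obtain ⟨n, hn⟩ := h01
  have h11 : ¬ (p : ℤ) ∣ N 1 1 := fun hd' => hP.not_isUnit (isUnit_of_dvd_unit (by
    rw [Matrix.det_fin_two, hn]
    exact dvd_sub (Dvd.dvd.mul_left hd' _) (Dvd.dvd.mul_right (Dvd.intro n rfl) _)) hN)
  obtain ⟨D, hD⟩ : (p : ℤ) ∣ h.d := by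
    refine (hP.dvd_or_dvd (b := N 1 1 ^ 3) ?_).resolve_right fun hd' =>
      h11 (hP.dvd_of_dvd_pow hd')
    simp only [scale] at hd
    rw [hN.dvd_mul_left] at hd
    obtain ⟨k, hk⟩ := hd
    simp only [actMat, CubicForm.act, CubicForm.eval, Int.cast_id, hn] at hk
    exact ⟨k - h.a * n ^ 3 * p ^ 2 - h.b * n ^ 2 * p * N 1 1 - h.c * n * N 1 1 ^ 2,
      by linear_combination hk⟩
  refine ⟨⟨D, hD⟩, !![N 0 0, n; p * N 1 0, N 1 1], ?_, ?_⟩
  · convert hN using 1
    rw [Matrix.det_fin_two_of, Matrix.det_fin_two, hn]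
    ring
  have hdet : (!![N 0 0, n; (p : ℤ) * N 1 0, N 1 1] : Matrix (Fin 2) (Fin 2) ℤ).det = N.det := by
    rw [Matrix.det_fin_two_of, Matrix.det_fin_two, hn]
    ring
  rw [hdet]
  set u := N.det
  have e : (scale u (actMat h N)).d =
      (p : ℤ) * (u * (h.a * n ^ 3 * p ^ 2 + h.b * n ^ 2 * p * N 1 1 + h.c * n * N 1 1 ^ 2 +
        D * N 1 1 ^ 3)) := by
    simp only [scale, actMat, CubicForm.act, CubicForm.eval, Int.cast_id, hn, hD]
    ring
  have e' : h.d / (p : ℤ) = D := by rw [hD, Int.mul_ediv_cancel_left _ hp0]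
  ext <;>
    simp only [backForm, e, Int.mul_ediv_cancel_left _ hp0, e'] <;>
    simp only [scale, actMat, CubicForm.act, CubicForm.eval, Int.cast_id, hn, hD,
      Matrix.of_apply, Matrix.cons_val', Matrix.cons_val_zero, Matrix.cons_val_one,
      Matrix.cons_val_fin_one] <;>
    ring

theorem exists_rootMat {p : ℕ} (hp : p.Prime) (M : Matrix (Fin 2) (Fin 2) ℤ) :
    ∃ o ∈ Finset.insertNone (Finset.range p), (p : ℤ) ∣ ((rootMat o).adjugate * M) 0 1 := by
  have hp0 : (p : ℤ) ≠ 0 := by exact_mod_cast hp.ne_zero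
  by_cases h : (p : ℤ) ∣ M 1 1
  · refine ⟨none, by simp, ?_⟩
    simp [rootMat, Matrix.adjugate_fin_two, Matrix.mul_apply, Fin.sum_univ_two, h]
  · obtain ⟨u, v, huv⟩ := (Nat.prime_iff_prime_int.mp hp).coprime_iff_not_dvd.mpr h
    refine ⟨some ((M 0 1 * v) % p).toNat, ?_, ?_⟩
    · simp only [Finset.some_mem_insertNone, Finset.mem_range]
      have := Int.emod_lt_of_pos (M 0 1 * v) (by exact_mod_cast hp.pos : (0 : ℤ) < p)
      omega
    · simp [rootMat, Matrix.adjugate_fin_two, Matrix.mul_apply, Fin.sum_univ_two]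
      rw [max_eq_left (Int.emod_nonneg _ hp0), Int.emod_def]
      exact ⟨M 0 1 * u + M 0 1 * v / p * M 1 1, by linear_combination -(M 0 1) * huv⟩

/-- The roots mod `p`. -/
def rootsMod (p : ℕ) (g : CubicForm) : Finset (Option ℕ) :=
  (Finset.insertNone (Finset.range p)).filter fun o => (p : ℤ) ∣ (actMat g (rootMat o)).d

theorem card_rootsMod_le {p : ℕ} (hp : p.Prime) {g : CubicForm} (hg : ¬ AllDvd (p : ℤ) g) :
    (rootsMod p g).card ≤ 3 := by
  have : Fact p.Prime := ⟨hp⟩
  set P : Polynomial (ZMod p) := Polynomial.C (g.a : ZMod p) * Polynomial.X ^ 3 +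
    Polynomial.C (g.b : ZMod p) * Polynomial.X ^ 2 + Polynomial.C (g.c : ZMod p) * Polynomial.X +
    Polynomial.C (g.d : ZMod p) with hP
  have hc : ∀ x : ℤ, (p : ℤ) ∣ x ↔ (x : ZMod p) = 0 := fun x =>
    (ZMod.intCast_zmod_eq_zero_iff_dvd x p).symm
  have hP0 : P ≠ 0 := by
    intro h0
    have e : ∀ k, P.coeff k = 0 := by simp [h0]
    have e0 := e 0
    have e1 := e 1
    have e2 := e 2
    have e3 := e 3
    simp [hP, Polynomial.coeff_X, Polynomial.coeff_C, -eq_intCast, -map_intCast] at e0 e1 e2 e3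
    exact hg ⟨(hc _).mpr e3, (hc _).mpr e2, (hc _).mpr e1, (hc _).mpr e0⟩
  set R := (Finset.range p).filter fun t : ℕ => (p : ℤ) ∣ (actMat g (rootMat (some t))).d
  have hR : R.card ≤ P.natDegree := by
    refine le_trans ?_ ((Multiset.toFinset_card_le _).trans (Polynomial.card_roots' P))
    refine Finset.card_le_card_of_injOn (fun t => (t : ZMod p)) (fun t ht => ?_)
      fun s hs t ht he => ?_
    · rw [Finset.mem_coe, Finset.mem_filter] at ht
      rw [Finset.mem_coe, Multiset.mem_toFinset, Polynomial.mem_roots hP0, Polynomial.IsRoot]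
      have := (hc _).mp ht.2
      simp [rootMat, actMat, CubicForm.act, CubicForm.eval] at this
      simp [hP]
      linear_combination this
    · rw [Finset.mem_coe, Finset.mem_filter, Finset.mem_range] at hs ht
      have := congrArg ZMod.val he
      rwa [ZMod.val_natCast, ZMod.val_natCast, Nat.mod_eq_of_lt hs.1, Nat.mod_eq_of_lt ht.1] at this
  have hsub : rootsMod p g ⊆
      if (p : ℤ) ∣ g.a then Finset.insertNone R else R.image some := by
    intro o ho
    rw [rootsMod, Finset.mem_filter] at ho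
    cases o with
    | none =>
      have : (p : ℤ) ∣ g.a := by
        simpa [rootMat, actMat, CubicForm.act, CubicForm.eval] using ho.2
      simp [this]
    | some t =>
      have : t ∈ R := Finset.mem_filter.mpr ⟨by simpa using ho.1, ho.2⟩
      split_ifs <;> simp [this]
  refine (Finset.card_le_card hsub).trans ?_
  split_ifs with ha
  · rw [Finset.card_insertNone]
    have : P.natDegree ≤ 2 := by
      rw [hP, (hc _).mp ha]
      simp only [map_zero, zero_mul, zero_add]
      compute_degree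
    omega
  · refine Finset.card_image_le.trans (hR.trans ?_)
    rw [hP]
    compute_degree

/-- A representative of a class. -/
def classRep (c : Set CubicForm) : CubicForm :=
  if h : ∃ f, c = classSet f then h.choose else ⟨0, 0, 0, 0⟩

theorem classRep_spec (f : CubicForm) : Twisted (classRep (classSet f)) f := by
  have h : ∃ g, classSet f = classSet g := ⟨f, rfl⟩
  rw [classRep, dif_pos h]
  exact twisted_of_classSet h.choose_spec.symm

theorem disc_scale (k : ℤ) (f : CubicForm) : (scale k f).disc = k ^ 4 * f.disc := by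
  simp only [scale, CubicForm.disc]
  ring

theorem anisotropic_of_eval {f g : CubicForm} (hf : f.Anisotropic)
    (h : ∀ X Y : ℤ, g.eval X Y = 0 → f.eval X Y = 0) : g.Anisotropic :=
  fun X Y h0 => hf X Y (h X Y h0)

theorem sgn_disc_div {ε : Bool} {k : ℕ} (hk : 0 < k) {D E : ℤ} (h : D = (k : ℤ) * E) {X : ℝ}
    (h0 : 0 < sgn ε * D) (h1 : sgn ε * D ≤ X) : 0 < sgn ε * E ∧ sgn ε * E ≤ X / k := by
  have hk' : (0 : ℝ) < k := by exact_mod_cast hk
  have e : sgn ε * (D : ℝ) = k * (sgn ε * E) := by rw [h]; push_cast; ring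
  rw [e] at h0 h1
  exact ⟨pos_of_mul_pos_right h0 hk'.le, by rw [le_div_iff₀ hk', mul_comm]; exact h1⟩

/-- The forms divisible by `p`. -/
def allBad (p : ℕ) : Set CubicForm := {f | AllDvd (p : ℤ) f}

theorem allBad_subset (ε : Bool) {p : ℕ} (hp : p.Prime) (X : ℝ) :
    classes ε (allBad p) X ⊆
      (fun c => classSet (scale (p : ℤ) (classRep c))) ''
        classes ε Set.univ (X / (p : ℝ) ^ 4) := by
  rintro c ⟨f, ⟨⟨a, ha⟩, ⟨b, hb⟩, ⟨cc, hcc⟩, ⟨d, hd⟩⟩, han, h0, h1, rfl⟩
  set g : CubicForm := ⟨a, b, cc, d⟩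
  have hfg : f = scale (p : ℤ) g := by ext <;> simp [scale, g, ha, hb, hcc, hd]
  have hD : f.disc = ((p ^ 4 : ℕ) : ℤ) * g.disc := by rw [hfg, disc_scale]; push_cast; ring
  obtain ⟨g0, g1⟩ := sgn_disc_div (pow_pos hp.pos 4) hD h0 h1
  refine ⟨classSet g, ⟨g, trivial, anisotropic_of_eval han fun X Y h => ?_, g0,
    by push_cast at g1; exact g1, rfl⟩, ?_⟩
  · rw [hfg]
    simp only [scale, CubicForm.eval, Int.cast_id] at h ⊢
    linear_combination (p : ℤ) * h
  · refine classSet_eq ?_
    obtain ⟨M, hM, hM'⟩ := classRep_spec g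
    refine ⟨M, hM, ?_⟩
    rw [hfg]
    conv_lhs => rw [hM']
    rw [actMat_scale, scale_scale, scale_scale, mul_comm]

theorem ncard_allBad_le (ε : Bool) {p : ℕ} (hp : p.Prime) (X : ℝ) :
    (classes ε (allBad p) X).ncard ≤ (classes ε Set.univ (X / (p : ℝ) ^ 4)).ncard :=
  (Set.ncard_le_ncard (allBad_subset ε hp X) ((classes_finite _ _ _).image _)).trans
    (Set.ncard_image_le (classes_finite _ _ _))

theorem badAt_subset (ε : Bool) {p : ℕ} (hp : p.Prime) (X : ℝ) :
    classes ε (badAt p) X ⊆ classes ε (allBad p) X ∪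
      ⋃ c ∈ classes ε Set.univ (X / (p : ℝ) ^ 2),
        ((rootsMod p (classRep c)).image fun o =>
          classSet (backForm p (actMat (classRep c) (rootMat o))) : Finset _) := by
  rintro c ⟨f, hbad, han, h0, h1, rfl⟩
  rcases hbad with hall | ⟨f', htw, ⟨A, hA⟩, ⟨B, hB⟩⟩
  · exact Or.inl ⟨f, hall, han, h0, h1, rfl⟩
  refine Or.inr ?_
  have han' := twisted_anisotropic htw han
  rw [← twisted_disc htw] at h0 h1
  set g : CubicForm := ⟨A, B, f'.c, f'.d * p⟩ with hg
  have hp0 : (p : ℤ) ≠ 0 := by exact_mod_cast hp.ne_zero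
  have hback : backForm p g = f' := by
    ext <;> simp [backForm, g, hA, hB, Int.mul_ediv_cancel _ hp0]
  have hD : f'.disc = ((p ^ 2 : ℕ) : ℤ) * g.disc := by
    simp only [CubicForm.disc, g, hA, hB]; push_cast; ring
  obtain ⟨g0, g1⟩ := sgn_disc_div (pow_pos hp.pos 2) hD h0 h1
  have hga : g.Anisotropic := by
    intro X Y h
    have e : f'.eval X (p * Y) = 0 := by
      simp only [g, CubicForm.eval, Int.cast_id, hA, hB] at h ⊢
      linear_combination (p : ℤ) ^ 2 * h
    obtain ⟨e1, e2⟩ := han' _ _ e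
    exact ⟨e1, (mul_eq_zero.mp e2).resolve_left hp0⟩
  simp only [Set.mem_iUnion, Finset.coe_image, Set.mem_image, Finset.mem_coe, exists_prop]
  refine ⟨classSet g, ⟨g, trivial, hga, g0, by push_cast at g1; exact g1, rfl⟩, ?_⟩
  obtain ⟨M, hM, hM'⟩ := classRep_spec g
  set r := classRep (classSet g)
  obtain ⟨o, ho, hdvd⟩ := exists_rootMat hp M
  set N := (rootMat o).adjugate * M with hN
  have hdetN : N.det = M.det := by
    rw [hN, Matrix.det_mul, Matrix.det_adjugate, det_rootMat]; simp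
  have hgN : g = scale N.det (actMat (actMat r (rootMat o)) N) := by
    rw [hdetN, actMat_mul, hN, ← Matrix.mul_assoc, Matrix.mul_adjugate, det_rootMat, one_smul,
      Matrix.one_mul]
    exact hM'
  obtain ⟨k1, k2⟩ := twisted_backForm hp (hdetN ▸ hM) hdvd (by
    rw [← hgN]; exact ⟨f'.d, by simp [g, mul_comm]⟩)
  refine ⟨o, Finset.mem_filter.mpr ⟨ho, k1⟩, ?_⟩
  rw [← hgN, hback] at k2
  exact classSet_eq (twisted_trans k2 (twisted_symm htw))

theorem ncard_badAt_le (ε : Bool) {p : ℕ} (hp : p.Prime) (X : ℝ) :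
    (classes ε (badAt p) X).ncard ≤ (classes ε Set.univ (X / (p : ℝ) ^ 4)).ncard +
      (3 * (classes ε Set.univ (X / (p : ℝ) ^ 2)).ncard +
        (p + 1) * (classes ε Set.univ (X / (p : ℝ) ^ 2 / (p : ℝ) ^ 4)).ncard) := by
  set K := (classes_finite ε Set.univ (X / (p : ℝ) ^ 2)).toFinset
  set F : Set CubicForm → Finset (Set CubicForm) := fun c =>
    (rootsMod p (classRep c)).image fun o =>
      classSet (backForm p (actMat (classRep c) (rootMat o)))
  have hU : (⋃ c ∈ classes ε Set.univ (X / (p : ℝ) ^ 2), (F c : Set (Set CubicForm))) =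
      (K.biUnion F : Set _) := by
    simp [K]
  refine (Set.ncard_le_ncard (badAt_subset ε hp X) ((classes_finite _ _ _).union
    (by rw [hU]; exact Finset.finite_toSet _))).trans ((Set.ncard_union_le _ _).trans ?_)
  refine add_le_add (ncard_allBad_le ε hp X) ?_
  rw [hU, Set.ncard_coe_finset]
  refine Finset.card_biUnion_le.trans ?_
  calc ∑ c ∈ K, (F c).card
      ≤ ∑ c ∈ K, (3 + if classRep c ∈ allBad p then p + 1 else 0) := by
        refine Finset.sum_le_sum fun c _ => Finset.card_image_le.trans ?_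
        split_ifs with h
        · exact le_add_left ((Finset.card_filter_le _ _).trans (by simp))
        · exact card_rootsMod_le hp h
    _ = 3 * K.card + (p + 1) * (K.filter fun c => classRep c ∈ allBad p).card := by
        rw [Finset.sum_add_distrib, Finset.sum_const, smul_eq_mul, ← Finset.sum_filter,
          Finset.sum_const, smul_eq_mul]
        ring
    _ ≤ _ := by
        rw [← Set.ncard_eq_toFinset_card _ (classes_finite _ _ _)]
        gcongr
        refine le_trans ?_ (ncard_allBad_le ε hp (X / (p : ℝ) ^ 2))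
        rw [← Set.ncard_coe_finset]
        refine Set.ncard_le_ncard (fun c hc => ?_) (classes_finite _ _ _)
        rw [Finset.mem_coe, Finset.mem_filter, Set.Finite.mem_toFinset] at hc
        obtain ⟨⟨f, -, han, h0, h1, rfl⟩, hall⟩ := hc
        have htw := classRep_spec f
        refine ⟨_, hall, twisted_anisotropic (twisted_symm htw) han, ?_, ?_, (classSet_eq htw).symm⟩
        · rw [← twisted_disc htw]; exact h0
        · rw [← twisted_disc htw]; exact h1

theorem classes_empty_of_lt_one (ε : Bool) (Q : Set CubicForm) {X : ℝ} (hX : X < 1) :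
    classes ε Q X = ∅ := by
  refine Set.eq_empty_iff_forall_notMem.mpr ?_
  rintro c ⟨f, -, -, h0, h1, -⟩
  have h2 : sgn ε * (f.disc : ℝ) < 1 := h1.trans_lt hX
  cases ε <;> simp [sgn] at h0 h2
  · have : (-1 : ℝ) < (f.disc : ℝ) := by linarith
    rw [show (-1 : ℝ) = ((-1 : ℤ) : ℝ) by simp, Int.cast_lt] at this
    omega
  · rw [show (1 : ℝ) = ((1 : ℤ) : ℝ) by simp, Int.cast_lt] at h2
    omega

/-- **A uniform upper bound.** -/
theorem exists_classes_bound (ε : Bool) :
    ∃ C : ℝ, 0 ≤ C ∧ ∀ X : ℝ, 0 ≤ X → ((classes ε Set.univ X).ncard : ℝ) ≤ C * X := by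
  have h := tendsto_classes ε one_pos (Q := Set.univ) (fun _ _ _ _ => trivial) periodic_ones
  obtain ⟨X₀, hX₀⟩ := eventually_atTop.mp (h.eventually_le_const
    (lt_add_one (density 1 (Set.univ : Set CubicForm) * mainConst ε)))
  set L := density 1 (Set.univ : Set CubicForm) * mainConst ε + 1
  set C := max L ((classes ε Set.univ (max X₀ 1)).ncard : ℝ)
  have hC : 0 ≤ C := le_max_of_le_right (Nat.cast_nonneg _)
  refine ⟨C, hC, fun X hX => ?_⟩
  rcases lt_or_ge X 1 with h1 | h1
  · rw [classes_empty_of_lt_one ε _ h1]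
    simp
    positivity
  rcases lt_or_ge X (max X₀ 1) with h2 | h2
  · refine le_trans (le_trans ?_ (le_max_right _ _)) (le_mul_of_one_le_right hC h1)
    refine Nat.cast_le.mpr (Set.ncard_le_ncard ?_ (classes_finite _ _ _))
    rintro c ⟨f, hf, ha, h3, h4, rfl⟩
    exact ⟨f, hf, ha, h3, h4.trans h2.le, rfl⟩
  · have h5 := hX₀ X ((le_max_left _ _).trans h2)
    rw [div_le_iff₀ (by linarith)] at h5
    exact h5.trans (mul_le_mul_of_nonneg_right (le_max_left _ _) hX)

/-- **The uniformity estimate.** -/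
theorem exists_badAt_bound (ε : Bool) :
    ∃ C : ℝ, 0 ≤ C ∧ ∀ p : ℕ, p.Prime → ∀ X : ℝ, 0 ≤ X →
      ((classes ε (badAt p) X).ncard : ℝ) ≤ C * (X / (p : ℝ) ^ 2) := by
  obtain ⟨C, hC, h⟩ := exists_classes_bound ε
  refine ⟨6 * C, by positivity, fun p hp X hX => ?_⟩
  refine (Nat.cast_le.mpr (ncard_badAt_le ε hp X)).trans ?_
  push_cast
  have hp2 : (2 : ℝ) ≤ p := by exact_mod_cast hp.two_le
  refine (add_le_add (h _ (by positivity)) (add_le_add
    (mul_le_mul_of_nonneg_left (h _ (by positivity)) (by norm_num))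
    (mul_le_mul_of_nonneg_left (h _ (by positivity)) (by positivity)))).trans ?_
  set Z := X / (p : ℝ) ^ 2
  have hZ : 0 ≤ Z := by positivity
  have e1 : X / (p : ℝ) ^ 4 ≤ Z :=
    div_le_div_of_nonneg_left hX (by positivity) (pow_le_pow_right₀ (by linarith) (by norm_num))
  have e2 : ((p : ℝ) + 1) * (Z / (p : ℝ) ^ 4) ≤ 2 * Z := by
    rw [mul_div_assoc', div_le_iff₀ (by positivity)]
    nlinarith [one_le_pow₀ (show (1 : ℝ) ≤ p by linarith) (n := 4),
      le_self_pow₀ (show (1 : ℝ) ≤ p by linarith) (show 4 ≠ 0 by norm_num),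
      mul_le_mul_of_nonneg_right (show (p : ℝ) + 1 ≤ 2 * (p : ℝ) ^ 4 by
        nlinarith [le_self_pow₀ (show (1 : ℝ) ≤ p by linarith) (show 4 ≠ 0 by norm_num)]) hZ]
  nlinarith

end FA.CubicFields
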